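import Mathlib
import Fermat.Agent.LT.H11.SC
import Fermat.Agent.LT.T7.H558.FactDownSpec

/-!
# Row LT, tower T7, node C2.7.7 `FactDownC305`, leaf FD.9 (helper505): `HaarSigmaC558`

OFF-MAIN.  `haarSigmaC505 (K) : Fermat.Agent.LT.T7.H558.HaarSigmaC558 K`, the frozen Prop of
`Fermat/Agent/LT/T7/H558/FactDownSpec.lean` (helper558, sha256 8043f526) VERBATIM.
Registry row 2644.

Proof.  `GL₂(R)` is a closed subset of `M₂(R) × M₂(R)ᵐᵒᵖ`, hence σ-compact if `R` is
(`R = K_v`: locally compact and second countable, `H11/LC.lean`, `H11/SC.lean` of helper11;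
`R = ℂ`).  A Haar measure is finite on compact sets: the compact covering is a sequence of
spanning sets of finite measure.  A centraliser is a closed subgroup `T` (Hausdorff group), so
the preimage of a compact set under `T → G` is compact and
`(map val μT)(C) = μT(val⁻¹ C) < ∞`.
-/

set_option autoImplicit false
set_option linter.style.haveILetI false

open IsDedekindDomain NumberField MeasureTheory

noncomputable section

namespace Fermat.Agent.LT.T7.H505

/-! ## 1. Groups -/

/-- A Haar measure (Borel) of a σ-compact group is σ-finite. -/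
theorem sigmaFinite_haar505 {H : Type} [Group H] [TopologicalSpace H] [SigmaCompactSpace H]
    (μ : @Measure H (borel H)) (hμ : @Measure.IsHaarMeasure H _ _ (borel H) μ) :
    @SigmaFinite H (borel H) μ := by
  letI : MeasurableSpace H := borel H
  haveI : BorelSpace H := ⟨rfl⟩
  haveI := hμ
  exact ⟨⟨{ set := compactCovering H
            set_mem := fun _ => trivial
            finite := fun n => (isCompact_compactCovering H n).measure_lt_top
            spanning := iUnion_compactCovering H }⟩⟩

/-- The image in the group of a Haar measure (Borel) of a closed subgroup of a σ-compact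
Hausdorff group is σ-finite. -/
theorem sigmaFinite_map_val505 {H : Type} [Group H] [TopologicalSpace H] [T2Space H]
    [SigmaCompactSpace H] (T : Subgroup H) (hT : IsClosed (T : Set H))
    (μT : @Measure T (borel T)) (hμ : @Measure.IsHaarMeasure T _ _ (borel T) μT) :
    @SigmaFinite H (borel H) (@Measure.map T H (borel T) (borel H) Subtype.val μT) := by
  letI : MeasurableSpace H := borel H
  haveI : BorelSpace H := ⟨rfl⟩
  letI : MeasurableSpace T := borel T
  haveI : BorelSpace T := ⟨rfl⟩
  haveI := hμ
  have hval : Measurable (Subtype.val : T → H) := continuous_subtype_val.measurable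
  have hemb : Topology.IsClosedEmbedding (Subtype.val : T → H) :=
    hT.isClosedEmbedding_subtypeVal
  refine ⟨⟨{ set := compactCovering H
             set_mem := fun _ => trivial
             finite := fun n => ?_
             spanning := iUnion_compactCovering H }⟩⟩
  rw [Measure.map_apply hval (isCompact_compactCovering H n).measurableSet]
  exact (hemb.isCompact_preimage (isCompact_compactCovering H n)).measure_lt_top

/-- The twisted centraliser of a continuous endomorphism is closed. -/
theorem isClosed_twCentSub505 {H : Type} [Group H] [TopologicalSpace H] [IsTopologicalGroup H]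
    [T1Space H] (s : H →* H) (hs : Continuous s) (δ : H) :
    IsClosed ((T6.twCentSub s δ : Subgroup H) : Set H) := by
  have hc : Continuous (fun x : H => x⁻¹ * δ * s x) :=
    (continuous_inv.mul continuous_const).mul hs
  exact isClosed_singleton.preimage hc

/-- `GL₂(R)` is σ-compact if `R` is. -/
theorem sigmaCompactSpace_GL505 (R : Type) [CommRing R] [TopologicalSpace R]
    [IsTopologicalRing R] [T1Space R] [SigmaCompactSpace R] :
    SigmaCompactSpace (GL (Fin 2) R) := by
  haveI : SigmaCompactSpace (Matrix (Fin 2) (Fin 2) R) :=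
    inferInstanceAs (SigmaCompactSpace (Fin 2 → Fin 2 → R))
  haveI : T1Space (Matrix (Fin 2) (Fin 2) R) :=
    inferInstanceAs (T1Space (Fin 2 → Fin 2 → R))
  haveI : SigmaCompactSpace (Matrix (Fin 2) (Fin 2) R)ᵐᵒᵖ :=
    MulOpposite.opHomeomorph.symm.isClosedEmbedding.sigmaCompactSpace
  exact Units.isClosedEmbedding_embedProduct.sigmaCompactSpace

theorem glAut_refl505 (R : Type) [CommRing R] (x : GL (Fin 2) R) :
    T6.glAut (RingEquiv.refl R) x = x := by
  ext i j
  rfl

theorem continuous_glAut_refl505 (R : Type) [CommRing R] [TopologicalSpace R] :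
    Continuous (T6.glAut (RingEquiv.refl R)) := by
  have : (T6.glAut (RingEquiv.refl R) : GL (Fin 2) R → GL (Fin 2) R) = id :=
    funext fun x => glAut_refl505 R x
  rw [this]
  exact continuous_id

/-! ## 2. The leaf -/

variable (K : Type) [Field K] [NumberField K]

theorem sigmaCompactSpace_GL_adic505 (v : HeightOneSpectrum (𝓞 K)) :
    SigmaCompactSpace (GL (Fin 2) (v.adicCompletion K)) := by
  haveI := Fermat.Agent.LT.H11.LC.locallyCompactSpace_adicCompletion_h11 K v
  haveI := Fermat.Agent.LT.H11.SC.secondCountableTopology_adicCompletion_h11 K v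
  haveI : SigmaCompactSpace (v.adicCompletion K) := inferInstance
  exact sigmaCompactSpace_GL505 (v.adicCompletion K)

theorem sigmaCompactSpace_GL_cplx505 : SigmaCompactSpace (GL (Fin 2) ℂ) :=
  sigmaCompactSpace_GL505 ℂ

theorem haarSigmaC505 : Fermat.Agent.LT.T7.H558.HaarSigmaC558 K := by
  refine ⟨?_, ?_, ?_, ?_⟩
  · intro v μ hμ
    haveI := sigmaCompactSpace_GL_adic505 K v
    exact sigmaFinite_haar505 μ hμ
  · intro μ hμ
    haveI := sigmaCompactSpace_GL_cplx505
    exact sigmaFinite_haar505 μ hμ
  · intro v γ₀ μT hμ
    haveI := sigmaCompactSpace_GL_adic505 K v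
    exact sigmaFinite_map_val505 _
      (isClosed_twCentSub505 _ (continuous_glAut_refl505 (v.adicCompletion K)) γ₀) μT hμ
  · intro γ₀ μT hμ
    haveI := sigmaCompactSpace_GL_cplx505
    exact sigmaFinite_map_val505 _
      (isClosed_twCentSub505 (MonoidHom.id (GL (Fin 2) ℂ)) continuous_id γ₀) μT hμ

end Fermat.Agent.LT.T7.H505
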